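import Mathlib
import Fermat.Agent.S05.H5.FreyFacts
import Fermat.Agent.MU.S05.H5.Assembly

section MergeWrap_S05_H5_FreyNodal -- from S05/H5/FreyNodal.lean

set_option autoImplicit false

namespace S05H5

open WeierstrassCurve Fermat.Agent.FreyLib

variable {K : Type*} [Field K] [Algebra ℚ K] {Γ₀ : Type*} [LinearOrderedCommGroupWithZero Γ₀]

theorem frey_b₂_rat (P : FreyPackage) :
    P.freyCurve.b₂ = (P.b : ℚ) ^ P.p - (P.a : ℚ) ^ P.p := by
  simp only [WeierstrassCurve.b₂, FreyPackage.freyCurve]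
  ring

theorem frey_b₄_rat (P : FreyPackage) :
    8 * P.freyCurve.b₄ = -((P.a : ℚ) ^ P.p * (P.b : ℚ) ^ P.p) := by
  simp only [WeierstrassCurve.b₄, FreyPackage.freyCurve]
  ring

theorem frey_b₆_rat (P : FreyPackage) : P.freyCurve.b₆ = 0 := by
  simp only [WeierstrassCurve.b₆, FreyPackage.freyCurve]
  ring

/-- Transport of the nodal data from `ℚ` to `K`. -/
theorem nodal_data_of_rat (v : Valuation K Γ₀) (E : WeierstrassCurve ℚ) (n : ℕ)
    (s d b e : ℚ) (hb₂ : E.b₂ = b - 3 * s) (hb₄ : 8 * E.b₄ = 3 * s ^ 2 - 2 * s * b - d ^ 2)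
    (hb₆ : 16 * E.b₆ = (s ^ 2 - d ^ 2) * (b - s))
    (hvb : v (algebraMap ℚ K b) = 1) (hvs : v (algebraMap ℚ K s) ≤ 1)
    (hvd : v (algebraMap ℚ K d) = v (algebraMap ℚ K e) ^ n) (hve : v (algebraMap ℚ K e) < 1)
    (he0 : e ≠ 0) :
    ∃ s d b e : ℚ,
      (E⁄K).b₂ = algebraMap ℚ K b - 3 * algebraMap ℚ K s ∧
      8 * (E⁄K).b₄ = 3 * algebraMap ℚ K s ^ 2 - 2 * algebraMap ℚ K s * algebraMap ℚ K b
        - algebraMap ℚ K d ^ 2 ∧
      16 * (E⁄K).b₆ = (algebraMap ℚ K s ^ 2 - algebraMap ℚ K d ^ 2) *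
        (algebraMap ℚ K b - algebraMap ℚ K s) ∧
      v (algebraMap ℚ K b) = 1 ∧ v (algebraMap ℚ K s) ≤ 1 ∧
      v (algebraMap ℚ K d) = v (algebraMap ℚ K e) ^ n ∧ v (algebraMap ℚ K e) < 1 ∧ e ≠ 0 := by
  refine ⟨s, d, b, e, ?_, ?_, ?_, hvb, hvs, hvd, hve, he0⟩
  · show (E.map (algebraMap ℚ K)).b₂ = _
    rw [WeierstrassCurve.map_b₂, hb₂]
    simp only [map_sub, map_mul, map_ofNat]
  · show 8 * (E.map (algebraMap ℚ K)).b₄ = _
    rw [WeierstrassCurve.map_b₄]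
    have := congrArg (algebraMap ℚ K) hb₄
    simpa only [map_sub, map_mul, map_pow, map_ofNat] using this
  · show 16 * (E.map (algebraMap ℚ K)).b₆ = _
    rw [WeierstrassCurve.map_b₆]
    have := congrArg (algebraMap ℚ K) hb₆
    simpa only [map_sub, map_mul, map_pow, map_ofNat] using this

section vals

variable (v : Valuation K Γ₀) {q : ℕ} (hq : q.Prime) (hq2 : q ≠ 2) (hvq : v (q : K) < 1)
include hq hq2 hvq

theorem v_algebraMap_int (n : ℤ) : v (algebraMap ℚ K (n : ℚ)) = v (n : K) := by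
  rw [map_intCast]

theorem v_algebraMap_half (x : ℚ) : v (algebraMap ℚ K (x / 2)) = v (algebraMap ℚ K x) := by
  rw [map_div₀, map_div₀, map_ofNat, v_two_eq_one v hq hvq hq2, div_one]

theorem v_algebraMap_pow_unit {n : ℤ} (hn : ¬ (q : ℤ) ∣ n) (k : ℕ) :
    v (algebraMap ℚ K ((n : ℚ) ^ k)) = 1 := by
  rw [map_pow, map_intCast, map_pow, v_intCast_eq_one v hq hvq hn, one_pow]

theorem v_algebraMap_pow_small {n : ℤ} (hn : (q : ℤ) ∣ n) {k : ℕ} (hk : k ≠ 0) :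
    v (algebraMap ℚ K ((n : ℚ) ^ k)) < 1 := by
  rw [map_pow, map_intCast, map_pow]
  exact pow_lt_one₀ zero_le (v_intCast_lt_one v hvq hn) hk

end vals

theorem frey_goodOrNodal (P : FreyPackage) (v : Valuation K Γ₀) {q : ℕ} (hq : q.Prime)
    (hq2 : q ≠ 2) (hvq : v (q : K) < 1) : GoodOrNodal v P.freyCurve P.p := by
  have hq' : Prime (q : ℤ) := Nat.prime_iff_prime_int.mp hq
  by_cases hdiv : (q : ℤ) ∣ P.a * P.b * P.c
  swap
  · exact Or.inl (frey_not_v_Δ_lt_one P v hq hvq hdiv)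
  right
  have hp0 : P.p ≠ 0 := P.hp0
  have hFLT : (P.a : ℚ) ^ P.p + (P.b : ℚ) ^ P.p = (P.c : ℚ) ^ P.p := by
    exact_mod_cast P.hFLT
  have hnot : ∀ {x y : ℤ}, gcd x y = 1 → (q : ℤ) ∣ x → ¬ (q : ℤ) ∣ y := by
    intro x y hg hx hy
    have : (q : ℤ) ∣ gcd x y := dvd_gcd hx hy
    rw [hg] at this
    exact hq'.not_dvd_one this
  have hnot' : ∀ {x y : ℤ}, gcd x y = 1 → (q : ℤ) ∣ y → ¬ (q : ℤ) ∣ x := by
    intro x y hg hy hx
    exact hnot hg hx hy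
  have hh := v_algebraMap_half v hq hq2 hvq
  set A : ℚ := (P.a : ℚ) ^ P.p with hA
  set B : ℚ := (P.b : ℚ) ^ P.p with hB
  set C : ℚ := (P.c : ℚ) ^ P.p with hC
  have hsmall : ∀ {n : ℤ}, (q : ℤ) ∣ n → v (algebraMap ℚ K ((n : ℚ) ^ P.p)) < 1 :=
    fun hn => v_algebraMap_pow_small v hq hq2 hvq hn hp0
  have hunit : ∀ {n : ℤ}, ¬ (q : ℤ) ∣ n → v (algebraMap ℚ K ((n : ℚ) ^ P.p)) = 1 :=
    fun hn => v_algebraMap_pow_unit v hq hq2 hvq hn P.p
  have hdpow : ∀ n : ℤ, v (algebraMap ℚ K ((n : ℚ) ^ P.p / 2)) = v (algebraMap ℚ K (n : ℚ)) ^ P.p := by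
    intro n
    rw [hh, map_pow, map_pow]
  have hve : ∀ {n : ℤ}, (q : ℤ) ∣ n → v (algebraMap ℚ K (n : ℚ)) < 1 := by
    intro n hn
    rw [map_intCast]; exact v_intCast_lt_one v hvq hn
  rcases hq'.dvd_or_dvd hdiv with hab | hc
  · rcases hq'.dvd_or_dvd hab with ha | hb
    · -- q ∣ a
      have hbu : ¬ (q : ℤ) ∣ P.b := hnot P.hgcdab ha
      refine nodal_data_of_rat v P.freyCurve P.p (A / 2) (A / 2) (B + A / 2) (P.a : ℚ)
        ?_ ?_ ?_ ?_ ?_ (hdpow P.a) (hve ha) (by exact_mod_cast P.ha0)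
      · rw [frey_b₂_rat]; ring
      · rw [frey_b₄_rat]; ring
      · rw [frey_b₆_rat]; ring
      · rw [map_add, Valuation.map_add_eq_of_lt_left]
        · exact hunit hbu
        · rw [hh, hunit hbu]; exact hsmall ha
      · rw [hh]; exact le_of_lt (hsmall ha)
    · -- q ∣ b
      have hau : ¬ (q : ℤ) ∣ P.a := hnot' P.hgcdab hb
      refine nodal_data_of_rat v P.freyCurve P.p (-B / 2) (B / 2) (-(A + B / 2)) (P.b : ℚ)
        ?_ ?_ ?_ ?_ ?_ (hdpow P.b) (hve hb) (by exact_mod_cast P.hb0)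
      · rw [frey_b₂_rat]; ring
      · rw [frey_b₄_rat]; ring
      · rw [frey_b₆_rat]; ring
      · rw [map_neg, Valuation.map_neg, map_add, Valuation.map_add_eq_of_lt_left]
        · exact hunit hau
        · rw [hh, hunit hau]; exact hsmall hb
      · rw [hh, map_neg, Valuation.map_neg]; exact le_of_lt (hsmall hb)
  · -- q ∣ c
    have hau : ¬ (q : ℤ) ∣ P.a := hnot' P.hgcdac hc
    refine nodal_data_of_rat v P.freyCurve P.p ((A - B) / 2) (C / 2) ((A - B) / 2) (P.c : ℚ)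
      ?_ ?_ ?_ ?_ ?_ (hdpow P.c) (hve hc) (by exact_mod_cast P.hc0)
    · rw [frey_b₂_rat]; ring
    · rw [frey_b₄_rat, ← hFLT]; ring
    · rw [frey_b₆_rat]; ring
    · have e : A - B = 2 * A - C := by rw [← hFLT]; ring
      rw [hh, e, map_sub, Valuation.map_sub_eq_of_lt_left]
      · rw [map_mul, map_mul, map_ofNat, v_two_eq_one v hq hvq hq2, one_mul]
        exact hunit hau
      · rw [map_mul, map_mul, map_ofNat, v_two_eq_one v hq hvq hq2, one_mul, hunit hau]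
        exact hsmall hc
    · have e : A - B = 2 * A - C := by rw [← hFLT]; ring
      rw [hh, e, map_sub]
      refine vle_sub v ?_ (le_of_lt (hsmall hc))
      rw [map_mul, map_mul, map_ofNat, v_two_eq_one v hq hvq hq2, one_mul]
      exact le_of_eq (hunit hau)

end S05H5
end MergeWrap_S05_H5_FreyNodal
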